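import Fermat.Agent.LT.T7.H144.WSpecCut
import Fermat.Agent.LT.T2.H886.CuspAlg
import Fermat.Agent.LT.T2.H841.Avg
import Fermat.Agent.LT.H129.HeckeExists

/-!
# Row LT, tower T7, leaf T7.L2.2.B1.W2 `EigSpanC144` (registry row 2449, helper312)

OFF-MAIN.  ADDITIVE (new names only, all ending in `312`).  Statement VERBATIM:
`eigSpanC312 (K) : H144W.EigSpanC144 K` against `LT/T7/H144/WSpecCut.lean` of helper144
(sha256 b4ddb868).  UNCONDITIONAL.

(i) orthogonality of two joint eigenfunctions of the class of T2 whose data do not agree, the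
second one with unitary data (`T2.ops_closed`: `S_v` unitary, `T_v* = S_v⁻¹ T_v`, the sphere
means are self-adjoint; Hecke coset systems, scalar uniformisers and sphere parametrisations
exist);
(ii) `φ = ψ - ∑_{j ∈ J} ⟨ψ, u_j⟩ u_j` is a cusp function orthogonal to every `u_j`, so
`⟨φ, φ⟩ = 0` by Parseval and `φ = 0` (`T2.pairDefinite_closed`).

No equation lemma of a foreign definition is realised here (`show` instead of `unfold`).
-/

set_option autoImplicit false
set_option linter.unusedSectionVars false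
set_option linter.unusedVariables false

open AutomorphicForm IsDedekindDomain NumberField MeasureTheory
open scoped ComplexConjugate

noncomputable section

namespace Fermat.Agent.LT.T7.H312

open Fermat.Agent.LT.H556 Fermat.Agent.LT.H556.A0 Fermat.Agent.LT Fermat.Agent.LT.T7

attribute [local instance] Fermat.Agent.LT.T5.instMeasurableSpaceG

variable {K : Type} [Field K] [NumberField K]

/-- Sphere parametrisations exist at a complex place. -/
theorem exists_sphere312 (w : InfinitePlace K) (hw : w.IsComplex) (d : ℝ) :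
    ∃ Y : ℝ → ℝ → G K, T2.IsSphereAt w d Y :=
  ⟨fun α β => T2.H841.iota841 w hw (T2.H841.sphM841 d α β), fun α β =>
    ⟨T2.H841.isLocalAtInf_iota841 w hw _,
      T2.H841.infComp_iota841 w hw (T2.H841.det_sphM841_ne d α β)⟩⟩

/-- The pairing of a finite combination of cusp functions. -/
theorem pair_sum_left312 (F : T2.Frame K) {𝔫 : Ideal (𝓞 K)} {ι : Type} (J : Finset ι)
    (c : ι → ℂ) {f : ι → G K → ℂ} (hf : ∀ j, T2.IsCuspFn 𝔫 (f j)) {χ : G K → ℂ}
    (hχ : T2.IsCuspFn 𝔫 χ) :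
    T2.pair F (fun g => ∑ j ∈ J, c j * f j g) χ = ∑ j ∈ J, c j * T2.pair F (f j) χ := by
  classical
  induction J using Finset.induction_on with
  | empty =>
    have h0 : (fun g : G K => ∑ j ∈ (∅ : Finset ι), c j * f j g) = fun g => (0 : ℂ) * χ g := by
      funext g
      rw [Finset.sum_empty, zero_mul]
    rw [h0, T2.H886.pair_const_mul_left886, zero_mul, Finset.sum_empty]
  | insert a s ha ih =>
    have h1 : T2.IsCuspFn 𝔫 (fun g => c a * f a g) := T2.H886.isCuspFn_const_mul886 (c a) (hf a)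
    have h2 : T2.IsCuspFn 𝔫 (fun g => ∑ j ∈ s, c j * f j g) :=
      T2.H886.isCuspFn_sum886 s fun j _ => T2.H886.isCuspFn_const_mul886 (c j) (hf j)
    obtain ⟨C1, hC1⟩ := h1.bdd
    obtain ⟨C2, hC2⟩ := h2.bdd
    obtain ⟨C3, hC3⟩ := hχ.bdd
    have h0 : (fun g : G K => ∑ j ∈ insert a s, c j * f j g)
        = fun g => c a * f a g + ∑ j ∈ s, c j * f j g := by
      funext g
      rw [Finset.sum_insert ha]
    rw [h0, T2.H886.pair_add_left886 F h1.cont hC1 h2.cont hC2 hχ.cont hC3, ih,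
      T2.H886.pair_const_mul_left886, Finset.sum_insert ha]

/-- **Orthogonality**: two joint eigenfunctions of the class of T2 whose data do not agree
outside `S` (the second one with unitary data) are orthogonal. -/
theorem orth_of_not_agree312 (hcx : ∀ w : InfinitePlace K, w.IsComplex) {𝔫 : Ideal (𝓞 K)}
    (h𝔫 : 𝔫 ≠ ⊥) (R : Frame5 K) (hR : IsFrame5 R) (o : ℕ → HeightOneSpectrum (𝓞 K))
    {ψ φ : G K → ℂ} {C D : EigData K} (hψ : IsEigFn 𝔫 R.r 0 o ψ C)
    (hφ : IsEigFn 𝔫 R.r 0 o φ D) (S : Finset (HeightOneSpectrum (𝓞 K)))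
    (hS : ∀ v : HeightOneSpectrum (𝓞 K), v.asIdeal ∣ 𝔫 → v ∈ S) (hD : D.IsUnitaryOut S)
    (hne : ¬ C.AgreeOut S D) : T5.innerD R.μ R.F ψ φ = 0 := by
  have hψc : T2.IsCuspFn 𝔫 ψ := (T2.isWFn_zero_iff130 hR.ray o ψ).1 hψ.inv
  have hφc : T2.IsCuspFn 𝔫 φ := (T2.isWFn_zero_iff130 hR.ray o φ).1 hφ.inv
  obtain ⟨hO1, hO2, hO3, -⟩ := (T2.ops_closed K 𝔫 h𝔫).2 (T2.frameOf130 R hR)
  show T2.pair (T2.frameOf130 R hR) ψ φ = 0
  by_contra hp
  apply hne
  have hDu : (∀ w : HeightOneSpectrum (𝓞 K), w ∉ S →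
      ‖D.b w‖ = 1 ∧ conj (D.a w) = D.a w * conj (D.b w) ∧
      ‖D.a w‖ * Real.sqrt (Ideal.absNorm w.asIdeal : ℝ) ≤ (Ideal.absNorm w.asIdeal : ℝ) + 1) ∧
    ∀ (w : InfinitePlace K) (d : ℝ), 0 < d → (D.m w d).im = 0 ∧ ‖D.m w d‖ ≤ 4 * Real.pi := hD
  show (∀ w : HeightOneSpectrum (𝓞 K), w ∉ S → C.a w = D.a w ∧ C.b w = D.b w) ∧
    ∀ (w : InfinitePlace K) (d : ℝ), 0 < d → C.m w d = D.m w d
  refine ⟨fun v hvS => ?_, fun w d hd => ?_⟩
  · have hv : ¬ v.asIdeal ∣ 𝔫 := fun h => hvS (hS v h)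
    obtain ⟨hb1, ha1, -⟩ := hDu.1 v hvS
    obtain ⟨z, hz⟩ := H129.exists_scalarUniformizer129 v
    obtain ⟨H, hH⟩ := H129.exists_heckeCosetSystem129 v
    have hψe : (∀ H : Finset (G K), IsHeckeCosetSystem v H →
        ∀ g : G K, ∑ h ∈ H, ψ (g * h)
          = ((Real.sqrt (Ideal.absNorm v.asIdeal : ℝ) : ℝ) : ℂ) * C.a v * ψ g) ∧
        ∀ z : G K, IsScalarUniformizerAt v z → ∀ g : G K, ψ (g * z) = C.b v * ψ g :=
      hψ.hecke v hv
    have hφe : (∀ H : Finset (G K), IsHeckeCosetSystem v H →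
        ∀ g : G K, ∑ h ∈ H, φ (g * h)
          = ((Real.sqrt (Ideal.absNorm v.asIdeal : ℝ) : ℝ) : ℂ) * D.a v * φ g) ∧
        ∀ z : G K, IsScalarUniformizerAt v z → ∀ g : G K, φ (g * z) = D.b v * φ g :=
      hφ.hecke v hv
    -- `|b'| = 1`
    have hbb : D.b v * conj (D.b v) = 1 := by
      rw [Complex.mul_conj, Complex.normSq_eq_norm_sq, hb1]
      norm_num
    have hb0 : D.b v ≠ 0 := by
      intro h0
      rw [h0, zero_mul] at hbb
      exact zero_ne_one hbb
    have hcb0 : conj (D.b v) ≠ 0 := by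
      intro h0
      rw [h0, mul_zero] at hbb
      exact zero_ne_one hbb
    -- the eigenvalue of `S_v`
    have hb : C.b v = D.b v := by
      have h1 := hO1 v hv z hz ψ φ hψc hφc
      have e1 : T2.shift z ψ = fun g => C.b v * ψ g := funext fun g => hψe.2 z hz g
      have e2 : T2.shift z φ = fun g => D.b v * φ g := funext fun g => hφe.2 z hz g
      rw [e1, e2, T2.H886.pair_const_mul_left886, T2.H886.pair_const_mul_right886] at h1
      have h2 : (C.b v * conj (D.b v) - 1) * T2.pair (T2.frameOf130 R hR) ψ φ = 0 := by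
        rw [sub_mul, one_mul, mul_assoc, h1, sub_self]
      have h3 : C.b v * conj (D.b v) = 1 :=
        sub_eq_zero.1 ((mul_eq_zero.1 h2).resolve_right hp)
      exact mul_right_cancel₀ hcb0 (h3.trans hbb.symm)
    refine ⟨?_, hb⟩
    -- the eigenvalue of `T_v`
    have h1 := hO2 v hv H z hH hz ψ φ hψc hφc
    have e1 : T2.heckeSum H ψ
        = fun g => (((Real.sqrt (Ideal.absNorm v.asIdeal : ℝ) : ℝ) : ℂ) * C.a v) * ψ g :=
      funext fun g => hψe.1 H hH g
    have e3 : ∀ g : G K, φ (g * z⁻¹) = (D.b v)⁻¹ * φ g := by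
      intro g
      have h := hφe.2 z hz (g * z⁻¹)
      rw [inv_mul_cancel_right] at h
      rw [h, ← mul_assoc, inv_mul_cancel₀ hb0, one_mul]
    have e2 : T2.shift z⁻¹ (T2.heckeSum H φ)
        = fun g => (((Real.sqrt (Ideal.absNorm v.asIdeal : ℝ) : ℝ) : ℂ) * D.a v * (D.b v)⁻¹)
            * φ g := by
      funext g
      show ∑ h ∈ H, φ (g * z⁻¹ * h) = _
      rw [hφe.1 H hH (g * z⁻¹), e3 g]
      ring
    rw [e1, e2, T2.H886.pair_const_mul_left886, T2.H886.pair_const_mul_right886] at h1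
    have hq : (((Real.sqrt (Ideal.absNorm v.asIdeal : ℝ) : ℝ) : ℂ)) ≠ 0 := by
      rw [Complex.ofReal_ne_zero]
      apply ne_of_gt
      apply Real.sqrt_pos.2
      have hpos : 0 < Ideal.absNorm v.asIdeal :=
        lt_trans Nat.zero_lt_one (NumberField.HeightOneSpectrum.one_lt_absNorm v)
      exact_mod_cast hpos
    have h4 : conj ((((Real.sqrt (Ideal.absNorm v.asIdeal : ℝ) : ℝ) : ℂ)) * D.a v * (D.b v)⁻¹)
        = (((Real.sqrt (Ideal.absNorm v.asIdeal : ℝ) : ℝ) : ℂ)) * D.a v := by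
      rw [map_mul, map_mul, Complex.conj_ofReal, ha1, map_inv₀, mul_assoc, mul_assoc,
        mul_inv_cancel₀ hcb0, mul_one]
    rw [h4] at h1
    have h5 := mul_right_cancel₀ hp h1
    exact mul_left_cancel₀ hq h5
  · obtain ⟨hm1, -⟩ := hDu.2 w d hd
    obtain ⟨Y, hY⟩ := exists_sphere312 w (hcx w) d
    have h1 := hO3 w (hcx w) d hd Y hY ψ φ hψc hφc
    have e1 : T2.sphereMean Y ψ = fun g => C.m w d * ψ g :=
      funext fun g => hψ.mean w d hd Y hY g
    have e2 : T2.sphereMean Y φ = fun g => D.m w d * φ g :=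
      funext fun g => hφ.mean w d hd Y hY g
    rw [e1, e2, T2.H886.pair_const_mul_left886, T2.H886.pair_const_mul_right886,
      Complex.conj_eq_iff_im.2 hm1] at h1
    exact mul_right_cancel₀ hp h1

/-- **T7.L2.2.B1.W2 `EigSpanC144`.** -/
theorem eigSpanC312 (K : Type) [Field K] [NumberField K] : H144W.EigSpanC144 K := by
  classical
  intro hcx 𝔫 h𝔫 R hR o ι u C₀ hB S hS ψ C hψ
  have hψc : T2.IsCuspFn 𝔫 ψ := (T2.isWFn_zero_iff130 hR.ray o ψ).1 hψ.inv
  have huc : ∀ j, T2.IsCuspFn 𝔫 (u j) :=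
    fun j => (T2.isWFn_zero_iff130 hR.ray o (u j)).1 (hB.eig j).inv
  have hI : ∀ j : ι, ¬ C.AgreeOut S (C₀ j) → T5.innerD R.μ R.F ψ (u j) = 0 :=
    fun j hj => orth_of_not_agree312 hcx h𝔫 R hR o hψ (hB.eig j) S hS (hB.unitary j S hS) hj
  refine ⟨hI, fun J hJ x => ?_⟩
  set c : ι → ℂ := fun j => T5.innerD R.μ R.F ψ (u j) with hc
  have hsum : T2.IsCuspFn 𝔫 (fun g => ∑ j ∈ J, c j * u j g) :=
    T2.H886.isCuspFn_sum886 J fun j _ => T2.H886.isCuspFn_const_mul886 (c j) (huc j)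
  have hφc : T2.IsCuspFn 𝔫 (fun g => ψ g - ∑ j ∈ J, c j * u j g) :=
    T2.H886.isCuspFn_sub886 hψc hsum
  -- `φ` is orthogonal to every member of the basis
  have horth : ∀ i : ι,
      T5.innerD R.μ R.F (fun g => ψ g - ∑ j ∈ J, c j * u j g) (u i) = 0 := by
    intro i
    show T2.pair (T2.frameOf130 R hR) (fun g => ψ g - ∑ j ∈ J, c j * u j g) (u i) = 0
    obtain ⟨C1, hC1⟩ := hψc.bdd
    obtain ⟨C2, hC2⟩ := hsum.bdd
    obtain ⟨C3, hC3⟩ := (huc i).bdd
    rw [T2.H886.pair_sub_left886 (T2.frameOf130 R hR) hψc.cont hC1 hsum.cont hC2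
      (huc i).cont hC3, pair_sum_left312 (T2.frameOf130 R hR) J c huc (huc i)]
    have h1 : ∀ j ∈ J, c j * T2.pair (T2.frameOf130 R hR) (u j) (u i)
        = if j = i then c j else 0 := by
      intro j _
      by_cases hji : j = i
      · rw [if_pos hji, hji]
        have h2 : T2.pair (T2.frameOf130 R hR) (u i) (u i) = 1 := hB.norm_one i
        rw [h2, mul_one]
      · rw [if_neg hji]
        have h2 : T2.pair (T2.frameOf130 R hR) (u j) (u i) = 0 := hB.orth j i hji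
        rw [h2, mul_zero]
    rw [Finset.sum_congr rfl h1, Finset.sum_ite_eq' J i c]
    by_cases hi : i ∈ J
    · rw [if_pos hi]
      exact sub_self _
    · rw [if_neg hi, sub_zero]
      exact hI i fun h => hi (hJ i h)
  -- Parseval
  have hW : IsWFn 𝔫 R.r 0 o (fun g => ψ g - ∑ j ∈ J, c j * u j g) :=
    (T2.isWFn_zero_iff130 hR.ray o _).2 hφc
  have hP := hB.parseval _ hW
  have hz : (fun j => ‖T5.innerD R.μ R.F (fun g => ψ g - ∑ j ∈ J, c j * u j g) (u j)‖ ^ 2)
      = fun _ => (0 : ℝ) := by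
    funext j
    rw [horth j, norm_zero]
    norm_num
  rw [hz] at hP
  have hre : (T5.innerD R.μ R.F (fun g => ψ g - ∑ j ∈ J, c j * u j g)
      (fun g => ψ g - ∑ j ∈ J, c j * u j g)).re = 0 := hP.unique hasSum_zero
  have hnsq : T2.nsq (T2.frameOf130 R hR) (fun g => ψ g - ∑ j ∈ J, c j * u j g) = 0 := hre
  have hpair : T2.pair (T2.frameOf130 R hR) (fun g => ψ g - ∑ j ∈ J, c j * u j g)
      (fun g => ψ g - ∑ j ∈ J, c j * u j g) = 0 := by
    rw [T2.H886.pair_self_eq_nsq886, hnsq, Complex.ofReal_zero]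
  have h0 := (T2.pairDefinite_closed K 𝔫 h𝔫 (T2.frameOf130 R hR) _ hφc).2 hpair x
  exact sub_eq_zero.1 h0

end Fermat.Agent.LT.T7.H312
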