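import Mathlib
import Fermat.Agent.LT.T7.H40.ArchProjSpec

/-!
# Row LT, tower T7, leaf T7.L2.1.P1h `AvgCuspidalC` (helper312)

OFF-MAIN.  `avgCuspidalC312 (K) : H40.AvgCuspidalC K`: the mean of a cusp function over the unit
cube along a period family is cuspidal.  Spec: `LT/T7/H40/ArchProjSpec.lean` (helper40,
sha256 34d7f842), byte-identical copy with its imports.

Fubini on `D × cube` for the bounded continuous integrand `(x, t) ↦ ψ (n x * g * Y t)`:
`μ D < ⊤` (two fundamental domains of the countable group `K` have the same measure,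
`T1.AddFundDomC`), the cube has volume `1`, and the inner integral over `D` vanishes for every
`t` (`ψ` is cuspidal).
-/

set_option autoImplicit false
set_option linter.unusedSectionVars false
set_option linter.style.haveILetI false

open AutomorphicForm IsDedekindDomain NumberField MeasureTheory

noncomputable section

namespace Fermat.Agent.LT.T7.H312

open Fermat.Agent.LT.H556 Fermat.Agent.LT.H556.A0 Fermat.Agent.LT.T7 Fermat.Agent.LT.T7.H40

variable {K : Type} [Field K] [NumberField K]

theorem countable_numberField312 (K : Type) [Field K] [NumberField K] : Countable K :=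
  (Module.finBasis ℚ K).equivFun.toEquiv.injective.countable

/-- the unipotent family `x ↦ !![1, x; 0, 1]` is continuous -/
theorem continuous_unip312 (n : Adl K → G K)
    (hn : ∀ x : Adl K, (n x : Matrix (Fin 2) (Fin 2) (Adl K)) = !![1, x; 0, 1]) :
    Continuous n := by
  rw [Units.continuous_iff]
  constructor
  · have e : (Units.val ∘ n) = fun x : Adl K => !![1, x; 0, 1] := funext hn
    rw [e]
    refine continuous_matrix (fun i j => ?_)
    fin_cases i <;> fin_cases j
    · exact continuous_const
    · exact continuous_id
    · exact continuous_const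
    · exact continuous_const
  · have hinv : ∀ x : Adl K,
        (((n x)⁻¹ : G K) : Matrix (Fin 2) (Fin 2) (Adl K)) = !![1, -x; 0, 1] := by
      intro x
      apply Units.inv_eq_of_mul_eq_one_right
      rw [hn x]
      ext i j
      fin_cases i <;> fin_cases j <;> simp [Matrix.mul_apply, Fin.sum_univ_two]
    have e : (fun x : Adl K => (((n x)⁻¹ : G K) : Matrix (Fin 2) (Fin 2) (Adl K)))
        = fun x : Adl K => !![1, -x; 0, 1] := funext hinv
    rw [e]
    refine continuous_matrix (fun i j => ?_)
    fin_cases i <;> fin_cases j
    · exact continuous_const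
    · exact continuous_neg
    · exact continuous_const
    · exact continuous_const

theorem volume_cube312 (K : Type) [Field K] [NumberField K] :
    (volume : Measure (InfinitePlace K → ℝ)) (cube40 K) = 1 := by
  unfold cube40
  rw [Real.volume_pi_Ico]
  simp

/-- **T7.L2.1.P1h `AvgCuspidalC`.** -/
theorem avgCuspidalC312 (K : Type) [Field K] [NumberField K] : AvgCuspidalC K := by
  intro hT 𝔑 r Y hY ψ hψ
  letI : MeasurableSpace (Adl K) := borel (Adl K)
  haveI : BorelSpace (Adl K) := ⟨rfl⟩
  obtain ⟨⟨_, _, hsc⟩, _, _, _⟩ := hT.locComp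
  haveI := hsc
  intro μ hμ D hD n hn g
  haveI := hμ
  -- `μ D < ⊤`
  obtain ⟨D0, -, hD0, -, -, hD0fin⟩ := hT.addFundDom μ hμ
  haveI : Countable K := countable_numberField312 K
  haveI : Countable ↥((algebraMap K (Adl K)).toAddMonoidHom.range) :=
    (Set.countable_range (algebraMap K (Adl K))).to_subtype
  have hDfin : μ D < ⊤ := by
    have h := hD.measure_eq hD0
    rw [h]
    exact hD0fin
  haveI : IsFiniteMeasure (μ.restrict D) :=
    ⟨by rw [Measure.restrict_apply_univ]; exact hDfin⟩
  haveI : IsFiniteMeasure ((volume : Measure (InfinitePlace K → ℝ)).restrict (cube40 K)) :=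
    ⟨by rw [Measure.restrict_apply_univ, volume_cube312]; exact ENNReal.one_lt_top⟩
  obtain ⟨C, hC⟩ := hψ.bdd
  have hcont : Continuous
      (fun p : Adl K × (InfinitePlace K → ℝ) => ψ (n p.1 * g * Y p.2)) :=
    hψ.cont.comp ((((continuous_unip312 n hn).comp continuous_fst).mul continuous_const).mul
      (hY.cont.comp continuous_snd))
  have hint : Integrable (Function.uncurry fun (x : Adl K) (t : InfinitePlace K → ℝ) =>
      ψ (n x * g * Y t)) ((μ.restrict D).prod (volume.restrict (cube40 K))) :=
    Integrable.of_bound hcont.aestronglyMeasurable C (Filter.Eventually.of_forall fun p => hC _)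
  show ∫ x in D, archAvg40 Y ψ (n x * g) ∂μ = 0
  have h1 : (fun x : Adl K => archAvg40 Y ψ (n x * g))
      = fun x : Adl K => ∫ t in cube40 K, ψ (n x * g * Y t) := rfl
  rw [h1, integral_integral_swap hint]
  have h2 : ∀ t : InfinitePlace K → ℝ, ∫ x in D, ψ (n x * g * Y t) ∂μ = 0 := by
    intro t
    have h := hψ.cuspidal μ hμ D hD n hn (g * Y t)
    simpa only [mul_assoc] using h
  simp only [h2, integral_zero]

end Fermat.Agent.LT.T7.H312
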